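import Mathlib
import Fermat.Prelude.Def_EllipticCurve_FrobeniusTrace

/-!
# Existence of Frobenius elements in `Gal(ℚ̄/ℚ)`

For every prime `ℓ` there are a valuation subring `V` of `ℚ̄` lying over `ℓ` and an element
`σ` of the absolute Galois group which is a Frobenius element at `V`
(`Fermat.Agent.S54.exists_frobenius`).
-/

set_option autoImplicit false
set_option linter.style.haveILetI false
open scoped Pointwise
open Polynomial

namespace Fermat.Agent.S54

local notation "Qb" => AlgebraicClosure ℚ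
local notation "GQ" => (AlgebraicClosure ℚ ≃ₐ[ℚ] AlgebraicClosure ℚ)
local notation "Zb" => integralClosure ℤ (AlgebraicClosure ℚ)

local instance instAlgQb : Algebra.IsAlgebraic ℚ Qb := AlgebraicClosure.isAlgebraic ℚ
local instance instAlgClQb : IsAlgClosure ℚ Qb := ⟨inferInstance, inferInstance⟩
local instance instNormalQb : Normal ℚ Qb := IsAlgClosure.normal ℚ Qb
local instance instGaloisQb : IsGalois ℚ Qb := ⟨⟩

/-- discrete topology on the ring of all algebraic integers -/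
local instance instTopZb : TopologicalSpace Zb := ⊥
local instance instDiscZb : DiscreteTopology Zb := ⟨rfl⟩

theorem continuousSMul_Zb : ContinuousSMul GQ Zb := by
  rw [continuousSMul_iff_stabilizer_isOpen]
  intro x
  have h := stabilizer_isOpen_of_isIntegral (K := ℚ) (L := Qb) (x : Qb)
  convert h using 1
  ext g
  simp only [SetLike.mem_coe, MulAction.mem_stabilizer_iff]
  constructor
  · intro hg
    exact congrArg Subtype.val hg
  · intro hg
    exact Subtype.ext hg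

local instance instContZb : ContinuousSMul GQ Zb := continuousSMul_Zb

theorem isInvariant_Zb : Algebra.IsInvariant ℤ Zb GQ := by
  refine ⟨fun b hb => ?_⟩
  have hfix : (b : Qb) ∈ (⊥ : IntermediateField ℚ Qb) := by
    rw [InfiniteGalois.mem_bot_iff_fixed]
    intro g
    exact congrArg Subtype.val (hb g)
  rw [IntermediateField.mem_bot] at hfix
  obtain ⟨q, hq⟩ := hfix
  have hint : IsIntegral ℤ (algebraMap ℚ Qb q) := hq ▸ b.2
  have hintq : IsIntegral ℤ q := (isIntegral_algebraMap_iff (algebraMap ℚ Qb).injective).mp hint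
  obtain ⟨m, hm⟩ := IsIntegrallyClosed.isIntegral_iff.mp hintq
  refine ⟨m, Subtype.ext ?_⟩
  rw [← hq, ← hm]
  simp

local instance instInvZb : Algebra.IsInvariant ℤ Zb GQ := isInvariant_Zb

/-- Elements of a valuation ring `V` of `ℚ̄` containing `ℤ̄` are fractions `a / s` with
`a, s ∈ ℤ̄` and `s` a unit of `V`. Inductive form. -/
theorem exists_den_aux (V : ValuationSubring Qb)
    (hv1 : ∀ b : Zb, V.valuation (b : Qb) ≤ 1) (x : Qb) (hx : x ∈ V) :
    ∀ (n : ℕ) (p : Polynomial Zb), p.natDegree ≤ n → Polynomial.aeval x p = 0 →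
      (∃ i, V.valuation ((p.coeff i : Zb) : Qb) = 1) →
      ∃ s : Zb, V.valuation (s : Qb) = 1 ∧ ∃ a : Zb, (a : Qb) = (s : Qb) * x := by
  have hxv : V.valuation x ≤ 1 := (V.valuation_le_one_iff x).mpr hx
  intro n
  induction n with
  | zero =>
    intro p hp hpx ⟨i, hi⟩
    exfalso
    rw [Nat.le_zero] at hp
    rw [Polynomial.eq_C_of_natDegree_eq_zero hp] at hpx
    simp only [aeval_C] at hpx
    have h0 : p.coeff 0 = 0 := by
      apply Subtype.ext
      simpa using hpx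
    have hp0 : p = 0 := by
      rw [Polynomial.eq_C_of_natDegree_eq_zero hp, h0, C_0]
    rw [hp0] at hi
    simp at hi
  | succ n ih =>
    intro p hp hpx ⟨i, hi⟩
    set a : Zb := p.coeff (n + 1) with ha
    -- `a * x` is integral
    have hax : ∃ c : Zb, (c : Qb) = (a : Qb) * x := by
      by_cases ha0 : a = 0
      · exact ⟨0, by rw [ha0]; simp⟩
      · have hdeg : p.natDegree = n + 1 :=
          le_antisymm hp (Polynomial.le_natDegree_of_ne_zero ha0)
        have hlc : p.leadingCoeff = a := by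
          rw [Polynomial.leadingCoeff, hdeg]
        have h1 : IsIntegral Zb (p.leadingCoeff • x) := isIntegral_leadingCoeff_smul p x hpx
        rw [hlc] at h1
        have h2 : IsIntegral ℤ (a • x) := isIntegral_trans _ h1
        exact ⟨⟨a • x, h2⟩, rfl⟩
    obtain ⟨c, hc⟩ := hax
    by_cases hva : V.valuation (a : Qb) = 1
    · exact ⟨a, hva, c, hc⟩
    · have hva' : V.valuation (a : Qb) < 1 := lt_of_le_of_ne (hv1 a) hva
      have hvc : V.valuation (c : Qb) < 1 := by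
        rw [hc, map_mul]
        calc V.valuation (a : Qb) * V.valuation x ≤ V.valuation (a : Qb) * 1 := by
              gcongr
          _ = V.valuation (a : Qb) := mul_one _
          _ < 1 := hva'
      -- the new polynomial
      set g : Polynomial Zb := p.erase (n + 1) + Polynomial.monomial n c with hg
      have hgdeg : g.natDegree ≤ n := by
        rw [Polynomial.natDegree_le_iff_coeff_eq_zero]
        intro N hN
        rw [hg, Polynomial.coeff_add, Polynomial.coeff_erase, Polynomial.coeff_monomial]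
        have hN' : n ≠ N := hN.ne
        rw [if_neg hN']
        by_cases hN1 : N = n + 1
        · rw [if_pos hN1]; simp
        · rw [if_neg hN1]
          have : p.natDegree < N := by omega
          rw [Polynomial.coeff_eq_zero_of_natDegree_lt this]; simp
      have hgx : Polynomial.aeval x g = 0 := by
        have hp' : p = p.erase (n + 1) + Polynomial.monomial (n + 1) a := by
          rw [ha, add_comm, Polynomial.monomial_add_erase]
        have h1 : Polynomial.aeval x (p.erase (n + 1)) = - ((a : Qb) * x ^ (n + 1)) := by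
          have := hpx
          rw [hp', map_add, Polynomial.aeval_monomial] at this
          rw [eq_neg_iff_add_eq_zero]
          exact this
        rw [hg, map_add, h1, Polynomial.aeval_monomial]
        show -((a : Qb) * x ^ (n + 1)) + (c : Qb) * x ^ n = 0
        rw [hc]; ring
      have hgi : V.valuation ((g.coeff i : Zb) : Qb) = 1 := by
        have hi1 : i ≠ n + 1 := by
          rintro rfl
          exact hva hi
        rw [hg, Polynomial.coeff_add, Polynomial.coeff_erase, if_neg hi1,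
          Polynomial.coeff_monomial]
        by_cases hin : n = i
        · rw [if_pos hin]
          push_cast
          rw [Valuation.map_add_eq_of_lt_left _ (by rw [hi]; exact hvc), hi]
        · rw [if_neg hin, add_zero, hi]
      exact ih g hgdeg hgx ⟨i, hgi⟩

theorem exists_primitive_int_poly (x : Qb) :
    ∃ p : Polynomial ℤ, p.IsPrimitive ∧ Polynomial.aeval x p = 0 := by
  have hx : IsAlgebraic ℚ x := (AlgebraicClosure.isAlgebraic ℚ).isAlgebraic x
  have hxZ : IsAlgebraic ℤ x := (IsFractionRing.isAlgebraic_iff ℤ ℚ Qb).mpr hx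
  obtain ⟨q, hq0, hqx⟩ := hxZ
  refine ⟨q.primPart, Polynomial.isPrimitive_primPart q, ?_⟩
  have h1 : q = Polynomial.C q.content * q.primPart := Polynomial.eq_C_content_mul_primPart q
  rw [h1, map_mul, Polynomial.aeval_C] at hqx
  have hc : (algebraMap ℤ Qb) q.content ≠ 0 := by
    have : q.content ≠ 0 := Polynomial.content_eq_zero_iff.not.mpr hq0
    simpa using this
  exact (mul_eq_zero.mp hqx).resolve_left hc

/-- Elements of a valuation ring `V` of `ℚ̄` over `ℓ` are fractions `a / s` with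
`a, s ∈ ℤ̄` and `s` a unit of `V`. -/
theorem exists_den (V : ValuationSubring Qb)
    (hv1 : ∀ b : Zb, V.valuation (b : Qb) ≤ 1) (ℓ : ℕ) (hℓ : ℓ.Prime)
    (hvℓ : ∀ m : ℤ, ¬ (ℓ : ℤ) ∣ m → V.valuation ((m : ℤ) : Qb) = 1)
    (x : Qb) (hx : x ∈ V) :
    ∃ s : Zb, V.valuation (s : Qb) = 1 ∧ ∃ a : Zb, (a : Qb) = (s : Qb) * x := by
  obtain ⟨p₀, hprim, hp₀x⟩ := exists_primitive_int_poly x
  have hex : ∃ i, ¬ (ℓ : ℤ) ∣ p₀.coeff i := by
    by_contra hcon
    have hcon' : ∀ i, (ℓ : ℤ) ∣ p₀.coeff i := fun i => by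
      by_contra h
      exact hcon ⟨i, h⟩
    have hdvd : Polynomial.C (ℓ : ℤ) ∣ p₀ := (Polynomial.C_dvd_iff_dvd_coeff _ _).mpr hcon'
    have hunit : IsUnit (ℓ : ℤ) := hprim _ hdvd
    have := Int.isUnit_iff.mp hunit
    have h2 := hℓ.two_le
    omega
  obtain ⟨i, hi⟩ := hex
  refine exists_den_aux V hv1 x hx (p₀.map (algebraMap ℤ Zb)).natDegree
    (p₀.map (algebraMap ℤ Zb)) le_rfl ?_ ⟨i, ?_⟩
  · rw [Polynomial.aeval_map_algebraMap]
    exact hp₀x
  · rw [Polynomial.coeff_map]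
    have := hvℓ _ hi
    simpa using this

/-- Existence of a maximal ideal of `ℤ̄` over `ℓ` together with a valuation ring. -/
theorem exists_place (ℓ : ℕ) (hℓ : ℓ.Prime) :
    ∃ (Q : Ideal Zb) (V : ValuationSubring Qb), Q.IsMaximal ∧
      Q.comap (algebraMap ℤ Zb) = Ideal.span {(ℓ : ℤ)} ∧
      (∀ b : Zb, V.valuation (b : Qb) ≤ 1) ∧
      (∀ b : Zb, b ∈ Q ↔ V.valuation (b : Qb) < 1) := by
  have hPmax : (Ideal.span {(ℓ : ℤ)}).IsMaximal :=
    PrincipalIdealRing.isMaximal_of_irreducible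
      (Nat.prime_iff_prime_int.mp hℓ).irreducible
  have hker : RingHom.ker (algebraMap ℤ Zb) ≤ Ideal.span {(ℓ : ℤ)} := by
    intro m hm
    rw [RingHom.mem_ker] at hm
    have : (m : Qb) = 0 := by
      have := congrArg (Subtype.val) hm
      simpa using this
    have hm0 : m = 0 := by exact_mod_cast this
    rw [hm0]; exact Ideal.zero_mem _
  obtain ⟨Q, hQmax, hQP⟩ := Ideal.exists_ideal_over_maximal_of_isIntegral
    (S := Zb) (Ideal.span {(ℓ : ℤ)}) hker
  -- the ideal of the subring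
  let f : (Zb).toSubring →+* Zb := RingHom.id _
  have hQ' : Q.comap f ≠ ⊤ := by
    intro h
    have h1 : (1 : (Zb).toSubring) ∈ Q.comap f := by rw [h]; trivial
    rw [Ideal.mem_comap, map_one] at h1
    exact hQmax.ne_top ((Ideal.eq_top_iff_one _).mpr h1)
  obtain ⟨V, hZV, hQV⟩ := Ideal.image_subset_nonunits_valuationSubring (Q.comap f) hQ'
  have hv1 : ∀ b : Zb, V.valuation (b : Qb) ≤ 1 := fun b =>
    (V.valuation_le_one_iff _).mpr (hZV b.2)
  have hvQ : ∀ b : Zb, b ∈ Q → V.valuation (b : Qb) < 1 := fun b hb =>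
    V.mem_nonunits_iff.mp (hQV ⟨⟨b.1, b.2⟩, hb, rfl⟩)
  refine ⟨Q, V, hQmax, hQP, hv1, fun b => ⟨hvQ b, fun hb => ?_⟩⟩
  by_contra hbQ
  obtain ⟨c, q, hq, hcq⟩ := hQmax.exists_inv hbQ
  have h1 : V.valuation ((q : Zb) : Qb) < 1 := hvQ _ hq
  have h2 : V.valuation ((c : Qb) * (b : Qb)) < 1 := by
    rw [map_mul]
    calc V.valuation (c : Qb) * V.valuation (b : Qb) ≤ 1 * V.valuation (b : Qb) := by
          gcongr
          exact hv1 c
      _ = V.valuation (b : Qb) := one_mul _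
      _ < 1 := hb
  have h3 : V.valuation (1 : Qb) < 1 := by
    have : (1 : Qb) = (c : Qb) * (b : Qb) + ((q : Zb) : Qb) := by
      have := congrArg Subtype.val hcq
      simpa using this.symm
    rw [this]
    exact lt_of_le_of_lt (Valuation.map_add _ _ _) (max_lt h2 h1)
  rw [map_one] at h3
  exact lt_irrefl _ h3

/-- Every element of `ℤ̄` is an `ℓ`-th power. -/
theorem exists_pow_eq_Zb (ℓ : ℕ) (hℓ : 0 < ℓ) (b : Zb) : ∃ c : Zb, c ^ ℓ = b := by
  obtain ⟨c, hc⟩ := IsAlgClosed.exists_pow_nat_eq (b : Qb) hℓ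
  have hint : IsIntegral ℤ c := by
    have h1 : IsIntegral ℤ (c ^ ℓ) := hc ▸ b.2
    exact IsIntegral.of_pow hℓ h1
  exact ⟨⟨c, hint⟩, Subtype.ext hc⟩

/-- The Frobenius automorphism of `ℤ̄ / Q`. -/
theorem exists_frob_quot (ℓ : ℕ) (hℓ : ℓ.Prime) (Q : Ideal Zb) (hQmax : Q.IsMaximal)
    (hQP : Q.comap (algebraMap ℤ Zb) = Ideal.span {(ℓ : ℤ)})
    [Q.LiesOver (Ideal.span {(ℓ : ℤ)})] :
    ∃ σ₀ : (Zb ⧸ Q) ≃ₐ[ℤ ⧸ (Ideal.span {(ℓ : ℤ)})] (Zb ⧸ Q), ∀ y, σ₀ y = y ^ ℓ := by
  haveI : Fact ℓ.Prime := ⟨hℓ⟩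
  letI := Ideal.Quotient.field Q
  have hℓQ : ((ℓ : ℕ) : Zb ⧸ Q) = 0 := by
    have h1 : (ℓ : ℤ) ∈ Q.comap (algebraMap ℤ Zb) := by
      rw [hQP]; exact Ideal.subset_span rfl
    rw [Ideal.mem_comap] at h1
    have h2 : Ideal.Quotient.mk Q (algebraMap ℤ Zb (ℓ : ℤ)) = 0 :=
      Ideal.Quotient.eq_zero_iff_mem.mpr h1
    simpa using h2
  haveI : CharP (Zb ⧸ Q) ℓ := (CharP.charP_iff_prime_eq_zero hℓ).mpr hℓQ
  let F : (Zb ⧸ Q) →ₐ[ℤ ⧸ (Ideal.span {(ℓ : ℤ)})] (Zb ⧸ Q) :=
    { toRingHom := frobenius (Zb ⧸ Q) ℓ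
      commutes' := by
        intro r
        obtain ⟨m, rfl⟩ := Ideal.Quotient.mk_surjective r
        have h1 : algebraMap (ℤ ⧸ (Ideal.span {(ℓ : ℤ)})) (Zb ⧸ Q) (Ideal.Quotient.mk _ m)
            = ((m : ℤ) : Zb ⧸ Q) := by
          rw [← Ideal.Quotient.algebraMap_eq, ← IsScalarTower.algebraMap_apply]
          simp
        simp only [RingHom.toMonoidHom_eq_coe, OneHom.toFun_eq_coe, MonoidHom.toOneHom_coe,
          MonoidHom.coe_coe]
        rw [h1, map_intCast] }
  have hFbij : Function.Bijective F := by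
    constructor
    · exact frobenius_inj (Zb ⧸ Q) ℓ
    · intro y
      obtain ⟨b, rfl⟩ := Ideal.Quotient.mk_surjective y
      obtain ⟨c, hc⟩ := exists_pow_eq_Zb ℓ hℓ.pos b
      refine ⟨Ideal.Quotient.mk Q c, ?_⟩
      show frobenius (Zb ⧸ Q) ℓ (Ideal.Quotient.mk Q c) = _
      rw [frobenius_def, ← map_pow, hc]
  refine ⟨AlgEquiv.ofBijective F hFbij, fun y => ?_⟩
  show frobenius (Zb ⧸ Q) ℓ y = _
  rw [frobenius_def]

/-- Any element of the stabilizer of `Q` maps `V` into itself. -/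
theorem stab_maps_V (V : ValuationSubring Qb) (Q : Ideal Zb)
    (hv1 : ∀ b : Zb, V.valuation (b : Qb) ≤ 1)
    (hvQ : ∀ b : Zb, b ∈ Q ↔ V.valuation (b : Qb) < 1)
    (hden : ∀ x ∈ V, ∃ s : Zb, V.valuation (s : Qb) = 1 ∧ ∃ a : Zb, (a : Qb) = (s : Qb) * x)
    (g : GQ) (hg : g • Q = Q) (x : Qb) (hx : x ∈ V) : g x ∈ V := by
  obtain ⟨s, hs, a, ha⟩ := hden x hx
  have hsQ : s ∉ Q := fun h => by
    have := (hvQ s).mp h
    rw [hs] at this
    exact lt_irrefl _ this
  have hgsQ : g • s ∉ Q := by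
    intro h
    rw [← hg] at h
    exact hsQ (Ideal.smul_mem_pointwise_smul_iff.mp h)
  have hgs1 : V.valuation (g (s : Qb)) = 1 := by
    have h1 : V.valuation (((g • s : Zb)) : Qb) ≤ 1 := hv1 _
    have h2 : ¬ V.valuation (((g • s : Zb)) : Qb) < 1 := fun h => hgsQ ((hvQ _).mpr h)
    exact le_antisymm h1 (not_lt.mp h2)
  have hga : V.valuation (g (a : Qb)) ≤ 1 := hv1 (g • a)
  have hmul : g (a : Qb) = g (s : Qb) * g x := by rw [ha, map_mul]
  rw [← V.valuation_le_one_iff]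
  have : V.valuation (g (a : Qb)) = V.valuation (g x) := by
    rw [hmul, map_mul, hgs1, one_mul]
  rw [← this]; exact hga

/-- **Existence of Frobenius elements**: for every prime `ℓ` there are a valuation subring `V`
of `ℚ̄` lying over `ℓ` and a Frobenius element at `V` in the absolute Galois group of `ℚ`. -/
theorem exists_frobenius (ℓ : ℕ) (hℓ : ℓ.Prime) :
    ∃ (V : ValuationSubring (AlgebraicClosure ℚ))
      (σ : AlgebraicClosure ℚ ≃ₐ[ℚ] AlgebraicClosure ℚ),
      V.LiesOverPrime ℓ ∧ V.IsFrobeniusAt σ ℓ := by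
  obtain ⟨Q, V, hQmax, hQP, hv1, hvQ⟩ := exists_place ℓ hℓ
  haveI : Q.IsPrime := hQmax.isPrime
  haveI : Q.LiesOver (Ideal.span {(ℓ : ℤ)}) := ⟨hQP.symm⟩
  -- integers prime to ℓ are units
  have hmemQ : ∀ m : ℤ, (algebraMap ℤ Zb m) ∈ Q ↔ (ℓ : ℤ) ∣ m := by
    intro m
    rw [← Ideal.mem_comap, hQP, Ideal.mem_span_singleton]
  have hvℓ : ∀ m : ℤ, ¬ (ℓ : ℤ) ∣ m → V.valuation ((m : ℤ) : Qb) = 1 := by
    intro m hm
    have h1 : V.valuation ((algebraMap ℤ Zb m : Zb) : Qb) ≤ 1 := hv1 _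
    have h2 : ¬ V.valuation ((algebraMap ℤ Zb m : Zb) : Qb) < 1 := fun h =>
      hm ((hmemQ m).mp ((hvQ _).mpr h))
    have h3 := le_antisymm h1 (not_lt.mp h2)
    simpa using h3
  have hden := exists_den V hv1 ℓ hℓ hvℓ
  -- LiesOverPrime
  have hlies : V.LiesOverPrime ℓ := by
    show ((ℓ : ℕ) : Qb) ∈ V.nonunits
    rw [V.mem_nonunits_iff]
    have h1 : (algebraMap ℤ Zb (ℓ : ℤ)) ∈ Q := (hmemQ _).mpr dvd_rfl
    have h2 := (hvQ _).mp h1
    simpa using h2
  obtain ⟨σ₀, hσ₀⟩ := exists_frob_quot ℓ hℓ Q hQmax hQP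
  obtain ⟨⟨τ, hτ⟩, hτσ⟩ := Ideal.Quotient.stabilizerHom_surjective_of_profinite
    (G := GQ) (Ideal.span {(ℓ : ℤ)}) Q σ₀
  have hτQ' : τ • Q = Q := hτ
  have hτQ : ∀ b : Zb, τ • b - b ^ ℓ ∈ Q := by
    intro b
    have h1 := DFunLike.congr_fun hτσ (Ideal.Quotient.mk Q b)
    rw [hσ₀, Ideal.Quotient.stabilizerHom_apply] at h1
    rw [← Ideal.Quotient.eq, map_pow]
    exact h1
  -- τ stabilizes V
  have hτV : τ ∈ V.decompositionSubgroup ℚ := by
    rw [MulAction.mem_stabilizer_iff]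
    apply SetLike.ext
    intro x
    rw [ValuationSubring.mem_pointwise_smul_iff_inv_smul_mem]
    constructor
    · intro hx
      have := stab_maps_V V Q hv1 hvQ hden τ hτQ' _ hx
      simpa using this
    · intro hx
      have hinv : τ⁻¹ • Q = Q := by
        conv_lhs => rw [← hτQ']
        rw [inv_smul_smul]
      exact stab_maps_V V Q hv1 hvQ hden τ⁻¹ hinv _ hx
  refine ⟨V, τ, hlies, hτV, ?_⟩
  intro y
  obtain ⟨y, rfl⟩ := IsLocalRing.residue_surjective y
  rw [← IsLocalRing.ResidueField.residue_smul, ← map_pow]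
  rw [← sub_eq_zero, ← map_sub, IsLocalRing.residue_eq_zero_iff,
    ← ValuationSubring.coe_mem_nonunits_iff, V.mem_nonunits_iff]
  show V.valuation (τ (y : Qb) - (y : Qb) ^ ℓ) < 1
  obtain ⟨s, hs, a, ha⟩ := hden y y.2
  have hsQ : s ∉ Q := fun h => by
    have := (hvQ s).mp h
    rw [hs] at this
    exact lt_irrefl _ this
  have hτsQ : τ • s ∉ Q := by
    intro h
    rw [← hτQ'] at h
    exact hsQ (Ideal.smul_mem_pointwise_smul_iff.mp h)
  have hτs1 : V.valuation (τ (s : Qb)) = 1 := by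
    have h1 : V.valuation (((τ • s : Zb)) : Qb) ≤ 1 := hv1 _
    have h2 : ¬ V.valuation (((τ • s : Zb)) : Qb) < 1 := fun h => hτsQ ((hvQ _).mpr h)
    exact le_antisymm h1 (not_lt.mp h2)
  -- the numerator
  have hnum : s ^ ℓ * (τ • a - a ^ ℓ) - a ^ ℓ * (τ • s - s ^ ℓ) ∈ Q :=
    Q.sub_mem (Q.mul_mem_left _ (hτQ a)) (Q.mul_mem_left _ (hτQ s))
  have hnumv := (hvQ _).mp hnum
  have hkey : (((s ^ ℓ * (τ • a - a ^ ℓ) - a ^ ℓ * (τ • s - s ^ ℓ) : Zb)) : Qb)
      = (τ (s : Qb) * (s : Qb) ^ ℓ) * (τ (y : Qb) - (y : Qb) ^ ℓ) := by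
    have hτa : ((τ • a : Zb) : Qb) = τ (s : Qb) * τ (y : Qb) := by
      show τ (a : Qb) = _
      rw [ha, map_mul]
    have hτs : ((τ • s : Zb) : Qb) = τ (s : Qb) := rfl
    push_cast
    rw [hτa, hτs, ha]
    ring
  rw [hkey, map_mul, map_mul, map_pow, hτs1, hs, one_pow, one_mul, one_mul] at hnumv
  exact hnumv

end Fermat.Agent.S54
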